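import Fermat.Agent.PointCountOmega.Count
import Fermat.Agent.CombinatorialSieve.ShiftedPrimes

/-!
# The sieve of point counts, on the Riemann hypothesis

The good `p ≤ N` are weighed on their numbers of points `#E(𝔽_p)`; the primes `m < l < Z` divide a
share `c_l = 1 / l + O (1 / l ^ 2)` of them, with an error `N ^ (4/5) log ^ 4 N` in total up to the
level `N ^ (1/20)`, so the fundamental lemma gives a sifted set of order `N / log ^ 2 N` for
`Z = N ^ (1/(20 s))`, `s` a large constant.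
-/

set_option autoImplicit false
set_option linter.style.haveILetI false

noncomputable section

open Finset Filter WeierstrassCurve FA.Frob FA.CombinatorialSieve
open FA.ArtinHooley (logInt)
open FA.CyclicRed (AllFieldsRH)
open FA.PointOmega (pointsMod dvdCount localShare localShare_bounds)
open scoped Classical Topology WeierstrassCurve.Affine

local notation "Qb" => AlgebraicClosure ℚ
local notation "GQ" => AlgebraicClosure ℚ ≃ₐ[ℚ] AlgebraicClosure ℚ

namespace FA.PointSieve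

theorem localShare_lt_one {l : ℕ} (hl : 2 ≤ l) : 0 < localShare l ∧ localShare l < 1 := by
  have h2 : (2 : ℝ) ≤ l := Nat.ofNat_le_cast.2 hl
  have hd : 0 < ((l : ℝ) ^ 2 - 1) * ((l : ℝ) - 1) := mul_pos (by nlinarith) (by linarith)
  refine ⟨div_pos (by nlinarith) hd, (div_lt_one hd).2 ?_⟩
  nlinarith

/-- The multiplicative share. -/
def shareFn : ArithmeticFunction ℝ := ArithmeticFunction.prodPrimeFactors localShare

theorem shareFn_prime {l : ℕ} (hl : l.Prime) : shareFn l = localShare l := by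
  rw [shareFn, ArithmeticFunction.prodPrimeFactors_apply hl.ne_zero, hl.primeFactors,
    prod_singleton]

variable (W : WeierstrassCurve ℤ)

/-- The sieve. -/
def pointSieve (m N : ℕ) (Z : ℝ) : BoundingSieve where
  support := (dvdCount W ∅ N).image (pointsMod W)
  prodPrimes := sievingProd Z m.factorial
  prodPrimes_squarefree := squarefree_sievingProd Z m.factorial
  weights n := ((dvdCount W ∅ N).filter fun p => pointsMod W p = n).card
  weights_nonneg _ := Nat.cast_nonneg _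
  totalMass := logInt N
  nu := shareFn
  nu_mult := ArithmeticFunction.IsMultiplicative.prodPrimeFactors _
  nu_pos_of_prime _ hp _ := shareFn_prime hp ▸ (localShare_lt_one hp.two_le).1
  nu_lt_one_of_prime _ hp _ := shareFn_prime hp ▸ (localShare_lt_one hp.two_le).2

/-- The sifted set. -/
def siftedPrimes (m N : ℕ) (Z : ℝ) : Finset ℕ :=
  (dvdCount W ∅ N).filter fun p => (sievingProd Z m.factorial).Coprime (pointsMod W p)

theorem sum_image_count {P : Finset ℕ} (f : ℕ → ℕ) (Q : ℕ → Prop) [DecidablePred Q] :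
    ∑ n ∈ P.image f, (if Q n then (((P.filter fun p => f p = n).card : ℕ) : ℝ) else 0) =
      ((P.filter fun p => Q (f p)).card : ℝ) := by
  rw [← sum_filter, ← Nat.cast_sum, sum_card_fiberwise_eq_card_filter]
  refine congrArg (fun s : Finset ℕ => (s.card : ℝ)) (filter_congr fun p hp => ?_)
  rw [mem_filter]
  exact and_iff_right (mem_image_of_mem f hp)

theorem pointSieve_siftedSum (m N : ℕ) (Z : ℝ) :
    (pointSieve W m N Z).siftedSum = (siftedPrimes W m N Z).card := by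
  rw [BoundingSieve.siftedSum, siftedPrimes]
  exact sum_image_count _ fun n => (sievingProd Z m.factorial).Coprime n

theorem pointSieve_rem (m N : ℕ) (Z : ℝ) {d : ℕ} (hd : Squarefree d) :
    (pointSieve W m N Z).rem d =
      (dvdCount W d.primeFactors N).card - (∏ l ∈ d.primeFactors, localShare l) * logInt N := by
  have e : (pointSieve W m N Z).multSum d = ((dvdCount W d.primeFactors N).card : ℝ) := by
    rw [BoundingSieve.multSum]
    refine (sum_image_count (P := dvdCount W ∅ N) (pointsMod W) fun n => d ∣ n).trans ?_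
    refine congrArg (fun s : Finset ℕ => (s.card : ℝ)) ?_
    rw [dvdCount, dvdCount, filter_filter]
    refine filter_congr fun p _ => ?_
    have hiff : d ∣ pointsMod W p ↔ ∀ l ∈ d.primeFactors, l ∣ pointsMod W p := by
      refine ⟨fun h l hl => (Nat.dvd_of_mem_primeFactors hl).trans h, fun h => ?_⟩
      rw [← Nat.prod_primeFactors_of_squarefree hd]
      exact Finset.prod_primes_dvd _
        (fun l hl => (Nat.prime_of_mem_primeFactors hl).prime) h
    simp only [hiff, notMem_empty, false_implies, implies_true, and_true, and_assoc]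
  rw [BoundingSieve.rem, e]
  rw [show (pointSieve W m N Z).nu d = ∏ l ∈ d.primeFactors, localShare l from
    ArithmeticFunction.prodPrimeFactors_apply hd.ne_zero]
  rfl

theorem share_dimension (Z : ℝ) (m : ℕ) :
    DimensionBound (sievingPrimes Z m.factorial) shareFn Z 1 (Real.exp 17) := by
  rw [← show (11 : ℝ) * 1 + 6 = 17 by norm_num]
  refine dimensionBound_of_le zero_le_one (by norm_num) (fun p hp =>
    ⟨prime_of_mem_sievingPrimes hp, (mem_sievingPrimes.1 hp).2.1⟩) (fun p hp => ?_) fun p hp => ?_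
  all_goals rw [shareFn_prime (prime_of_mem_sievingPrimes hp)]
  · have h := localShare_lt_one (prime_of_mem_sievingPrimes hp).two_le
    exact ⟨h.1.le, h.2⟩
  have hp2 := (prime_of_mem_sievingPrimes hp).two_le
  have h1 := (localShare_lt_one hp2).2
  have h2 : (2 : ℝ) ≤ p := Nat.ofNat_le_cast.2 hp2
  have hd : 0 < ((p : ℝ) ^ 2 - 1) * ((p : ℝ) - 1) := mul_pos (by nlinarith) (by linarith)
  rw [localShare, show (1 : ℝ) / p + 6 / (p : ℝ) ^ 2 = ((p : ℝ) + 6) / (p : ℝ) ^ 2 by field_simp,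
    one_sub_div hd.ne', div_div_div_cancel_right₀ hd.ne',
    div_le_div_iff₀ (by nlinarith) (by positivity)]
  rcases eq_or_lt_of_le hp2 with h | h
  · rw [← h]
    norm_num
  · have h3 : (3 : ℝ) ≤ p := by exact_mod_cast h
    nlinarith [mul_le_mul_of_nonneg_left h3 (mul_nonneg (Nat.cast_nonneg (α := ℝ) p)
      (Nat.cast_nonneg (α := ℝ) p))]

/-- Mertens' product over the sieving primes. -/
theorem exists_prod_share_le (m : ℕ) : ∃ C : ℝ, 0 ≤ C ∧ ∀ Z : ℝ, 2 ≤ Z →
    ∏ p ∈ sievingPrimes Z m.factorial, (1 - shareFn p) ≤ C / Real.log Z := by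
  obtain ⟨c, C, -, h⟩ := exists_mertens_product
  refine ⟨2 ^ (m + 1) * |C|, by positivity, fun Z hZ => ?_⟩
  have hlZ : 0 < Real.log Z := Real.log_pos (by linarith)
  obtain ⟨T, hT⟩ : ∃ T, T = (range ⌈Z⌉₊).filter Nat.Prime := ⟨_, rfl⟩
  have hT2 : ∀ p ∈ T, (1 / 2 : ℝ) ≤ 1 - (p : ℝ)⁻¹ := fun p hp => by
    rw [hT, mem_filter] at hp
    have h2 : (2 : ℝ) ≤ p := Nat.ofNat_le_cast.2 hp.2.two_le
    linarith [inv_anti₀ two_pos h2]
  have hsp : sievingPrimes Z m.factorial = T.filter (m < ·) := by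
    ext p
    rw [hT, sievingPrimes, mem_filter, mem_filter, mem_filter]
    exact ⟨fun h => ⟨⟨h.1, h.2.1⟩, not_le.1 fun hle => h.2.2 (h.2.1.dvd_factorial.2 hle)⟩,
      fun h => ⟨h.1.1, h.1.2, fun hd => h.2.not_ge (h.1.2.dvd_factorial.1 hd)⟩⟩
  have hsmall : ((1 : ℝ) / 2) ^ (m + 1) ≤ ∏ p ∈ T.filter (¬ m < ·), (1 - (p : ℝ)⁻¹) := by
    refine le_trans (pow_le_pow_of_le_one (by norm_num) (by norm_num)
      ((card_le_card (s := T.filter (¬ m < ·)) (t := range (m + 1))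
        fun p hp => ?_).trans_eq (card_range _))) ?_
    · rw [mem_range]
      have := (mem_filter.1 hp).2
      omega
    · rw [← prod_const]
      exact prod_le_prod (fun _ _ => by norm_num) fun p hp => hT2 p (mem_filter.1 hp).1
  have hall := (h Z hZ).2
  rw [← hT, ← prod_filter_mul_prod_filter_not T (m < ·), ← hsp] at hall
  have hpos : 0 ≤ ∏ p ∈ sievingPrimes Z m.factorial, (1 - (p : ℝ)⁻¹) :=
    prod_nonneg fun p hp => by linarith [hT2 p (mem_filter.1 (hsp ▸ hp)).1]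
  have h1 := (mul_le_mul_of_nonneg_left hsmall hpos).trans hall
  have h2 : ∏ p ∈ sievingPrimes Z m.factorial, (1 - shareFn p) ≤
      ∏ p ∈ sievingPrimes Z m.factorial, (1 - (p : ℝ)⁻¹) := by
    refine prod_le_prod (fun p hp => ?_) fun p hp => ?_
    all_goals rw [shareFn_prime (prime_of_mem_sievingPrimes hp)]
    · linarith [(localShare_lt_one (prime_of_mem_sievingPrimes hp).two_le).2]
    · rw [← one_div]
      linarith [(localShare_bounds (prime_of_mem_sievingPrimes hp).two_le).1]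
  refine h2.trans ?_
  rw [div_pow, one_pow, mul_one_div, div_le_iff₀ (by positivity), div_mul_eq_mul_div,
    le_div_iff₀ hlZ] at h1
  rw [le_div_iff₀ hlZ]
  have h3 := le_abs_self C
  have h4 := mul_le_mul_of_nonneg_right h3 (show (0 : ℝ) ≤ 2 ^ (m + 1) by positivity)
  linarith

variable [(ratCurve W).IsElliptic]

/-- The remainder up to the level `N ^ (1/20)`. -/
theorem exists_remSum_le (hΔ : W.Δ ≠ 0) (hGRH : AllFieldsRH) {m : ℕ} (hm : m ≠ 0)
    (hsurj : ∀ N : ℕ, N ≠ 0 → N.Coprime m →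
      ∀ φ : Submodule.torsionBy ℤ ((ratCurve W)⁄Qb).Point (N : ℤ) ≃+
        Submodule.torsionBy ℤ ((ratCurve W)⁄Qb).Point (N : ℤ),
      ∃ σ : GQ, ∀ x, σ • x.1 = (φ x).1) :
    ∃ B : ℝ, 0 ≤ B ∧ ∀ (N : ℕ) (Z D : ℝ), 2 ≤ N → 1 ≤ Real.log N → 1 ≤ D →
      remSum (pointSieve W m N Z) D ≤ B * D ^ 6 * (√(N : ℝ) * Real.log N ^ 4) := by
  obtain ⟨B, hB, h⟩ := FA.PointOmega.exists_dvdCount_level_le W hΔ hGRH hm hsurj
  refine ⟨4 * B, by linarith, fun N Z D hN hL hD => ?_⟩
  obtain ⟨R, hR⟩ : ∃ R, R = √(N : ℝ) * Real.log N ^ 4 := ⟨_, rfl⟩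
  have hR1 : 1 ≤ R := hR ▸ one_le_mul_of_one_le_of_one_le
    (Real.one_le_sqrt.2 (Nat.one_le_cast.2 (show 1 ≤ N by omega))) (one_le_pow₀ hL)
  rw [← hR, remSum]
  refine (sum_le_card_nsmul _ _ (B * (D ^ 4 * (2 * D)) * (2 * R)) fun d hd => ?_).trans ?_
  · rw [mem_filter] at hd
    have hdP : d ∣ sievingProd Z m.factorial := Nat.dvd_of_mem_divisors hd.1
    have hsq := (squarefree_sievingProd Z m.factorial).squarefree_of_dvd hdP
    rw [pointSieve_rem W m N Z hsq]
    refine (h d.primeFactors (fun l hl => ?_) N hN).trans ?_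
    · have hlp := Nat.prime_of_mem_primeFactors hl
      refine ⟨hlp, not_le.1 fun hle => ((prime_dvd_sievingProd_iff hlp).1
        ((Nat.dvd_of_mem_primeFactors hl).trans hdP)).2 (hlp.dvd_factorial.2 hle)⟩
    rw [Nat.prod_primeFactors_of_squarefree hsq, ← hR]
    have hd0 : (0 : ℝ) ≤ d := Nat.cast_nonneg d
    have hl := Real.log_le_self hd0
    have := Real.log_natCast_nonneg d
    refine mul_le_mul (mul_le_mul_of_nonneg_left (mul_le_mul (pow_le_pow_left₀ hd0 hd.2.le 4)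
      (by linarith [hd.2]) (by linarith) (pow_nonneg (by linarith) 4)) hB) (by linarith)
      (by linarith) (by positivity)
  · have hc : ((((pointSieve W m N Z).prodPrimes.divisors.filter fun d : ℕ => (d : ℝ) < D).card :
        ℕ) : ℝ) ≤ D := by
      refine (Nat.cast_le.2 (card_le_card (t := Icc 1 ⌊D⌋₊) fun d hd => ?_)).trans ?_
      · rw [mem_filter] at hd
        exact mem_Icc.2 ⟨Nat.pos_of_mem_divisors hd.1, Nat.le_floor hd.2.le⟩
      · rw [Nat.card_Icc, Nat.add_sub_cancel]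
        exact Nat.floor_le (by linarith)
    rw [nsmul_eq_mul]
    refine (mul_le_mul_of_nonneg_right hc (by positivity)).trans (le_of_eq (by ring))

/-- **The sifted set is of order `N / log ^ 2 N`.** -/
theorem exists_sifted_bounds (hΔ : W.Δ ≠ 0) (hGRH : AllFieldsRH) {m : ℕ} (hm : m ≠ 0)
    (hsurj : ∀ N : ℕ, N ≠ 0 → N.Coprime m →
      ∀ φ : Submodule.torsionBy ℤ ((ratCurve W)⁄Qb).Point (N : ℤ) ≃+
        Submodule.torsionBy ℤ ((ratCurve W)⁄Qb).Point (N : ℤ),
      ∃ σ : GQ, ∀ x, σ • x.1 = (φ x).1) :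
    ∃ (s : ℕ) (η C : ℝ), 1 ≤ s ∧ 0 < η ∧ ∀ᶠ N : ℕ in atTop,
      2 ≤ (N : ℝ) ^ (1 / (20 * s) : ℝ) ∧
      4 * (N : ℝ) ^ (1 / (20 * s) : ℝ) + 1 ≤ (N : ℝ) / Real.log N ^ 2 ∧
      η * N / Real.log N ^ 2 ≤ (siftedPrimes W m N ((N : ℝ) ^ (1 / (20 * s) : ℝ))).card ∧
      ((siftedPrimes W m N ((N : ℝ) ^ (1 / (20 * s) : ℝ))).card : ℝ) ≤
        C * N / Real.log N ^ 2 := by
  obtain ⟨B, hB, hrem⟩ := exists_remSum_le W hΔ hGRH hm hsurj
  obtain ⟨C₀, hC₀, hprod⟩ := exists_prod_share_le m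
  obtain ⟨u, hu⟩ : ∃ u : ℝ, u = Real.exp 10 * Real.exp 17 ^ 10 := ⟨_, rfl⟩
  have hu0 : 0 < u := hu ▸ by positivity
  obtain ⟨s, hs⟩ : ∃ s : ℕ, s = ⌈40 * u + 10⌉₊ := ⟨_, rfl⟩
  have hs0 : 40 * u + 10 ≤ s := hs ▸ Nat.le_ceil _
  have hs1 : (1 : ℝ) ≤ s := by linarith
  obtain ⟨a, ha⟩ : ∃ a : ℝ, a = (Real.exp 17)⁻¹ * Real.log 2 * (20 * s) := ⟨_, rfl⟩
  have ha0 : 0 < a := ha ▸ mul_pos (mul_pos (by positivity) (Real.log_pos one_lt_two))
    (by linarith)
  obtain ⟨δ, hδ⟩ : ∃ δ : ℝ, δ = min (a / 8) 1 / (5 * (B + 1)) := ⟨_, rfl⟩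
  have hδ0 : 0 < δ := hδ ▸ div_pos (lt_min (by positivity) one_pos) (by positivity)
  refine ⟨s, a / 8, 3 * (C₀ * (20 * s)) + 1, by exact_mod_cast hs1, by positivity, ?_⟩
  filter_upwards [tendsto_natCast_atTop_atTop.eventually
      ((isLittleO_log_rpow_rpow_atTop (s := 1 / 5) 6 (by norm_num)).bound hδ0),
    tendsto_natCast_atTop_atTop.eventually
      ((FA.ArtinHooley.tendsto_logInt).eventually
        (Icc_mem_nhds (show (1 / 2 : ℝ) < 1 by norm_num) (show (1 : ℝ) < 2 by norm_num))),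
    (Real.tendsto_log_atTop.comp tendsto_natCast_atTop_atTop).eventually_ge_atTop (20 * (s : ℝ)),
    eventually_ge_atTop 2] with N hsmall hli hL hN
  simp only [Function.comp_apply] at hL
  obtain ⟨L, hLdef⟩ : ∃ L, L = Real.log (N : ℝ) := ⟨_, rfl⟩
  rw [← hLdef] at hsmall hli hL ⊢
  have hN0 : (0 : ℝ) < N := Nat.cast_pos.2 (by omega)
  have hN1 : (1 : ℝ) ≤ N := Nat.one_le_cast.2 (by omega)
  have hL1 : 1 ≤ L := by linarith
  obtain ⟨Z, hZ⟩ : ∃ Z, Z = (N : ℝ) ^ (1 / (20 * s) : ℝ) := ⟨_, rfl⟩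
  rw [← hZ]
  have hlZ : Real.log Z = L / (20 * s) := by
    rw [hZ, Real.log_rpow hN0, ← hLdef, one_div_mul_eq_div]
  have hZ2 : 2 ≤ Z := by
    rw [← Real.exp_log (show 0 < Z by rw [hZ]; positivity), hlZ]
    have : 1 ≤ L / (20 * s) := (one_le_div (by positivity)).2 hL
    linarith [Real.add_one_le_exp (L / (20 * s))]
  obtain ⟨D, hD⟩ : ∃ D, D = (N : ℝ) ^ (1 / 20 : ℝ) := ⟨_, rfl⟩
  have hD1 : 1 ≤ D := hD ▸ Real.one_le_rpow hN1 (by norm_num)
  have hZs : Z ^ (s : ℝ) = D := by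
    rw [hZ, hD, ← Real.rpow_mul hN0.le]
    field_simp
  have hZD : Z ≤ D := hZs ▸ Real.self_le_rpow_of_one_le (by linarith) hs1
  -- the error
  obtain ⟨X, hX⟩ : ∃ X, X = (N : ℝ) / L ^ 2 := ⟨_, rfl⟩
  have herr : (B + 1) * D ^ 6 * (√(N : ℝ) * L ^ 4) ≤ min (a / 8) 1 / 5 * X := by
    have h6 : L ^ (6 : ℕ) ≤ δ * (N : ℝ) ^ (1 / 5 : ℝ) := by
      rw [show (6 : ℝ) = ((6 : ℕ) : ℝ) by norm_num, Real.rpow_natCast, Real.norm_of_nonneg
        (pow_nonneg (by linarith) 6), Real.norm_of_nonneg (Real.rpow_nonneg hN0.le _)] at hsmall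
      exact hsmall
    have h1 : D ^ 6 * √(N : ℝ) = (N : ℝ) ^ (4 / 5 : ℝ) := by
      rw [hD, ← Real.rpow_natCast ((N : ℝ) ^ (1 / 20 : ℝ)) 6, ← Real.rpow_mul hN0.le,
        Real.sqrt_eq_rpow, ← Real.rpow_add hN0]
      norm_num
    rw [hX, mul_div_assoc', le_div_iff₀ (by positivity)]
    calc (B + 1) * D ^ 6 * (√(N : ℝ) * L ^ 4) * L ^ 2
        = (B + 1) * (D ^ 6 * √(N : ℝ)) * L ^ 6 := by ring
      _ ≤ (B + 1) * (N : ℝ) ^ (4 / 5 : ℝ) * (δ * (N : ℝ) ^ (1 / 5 : ℝ)) := by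
          rw [h1]
          exact mul_le_mul_of_nonneg_left h6 (by positivity)
      _ = (B + 1) * δ * ((N : ℝ) ^ (4 / 5 : ℝ) * (N : ℝ) ^ (1 / 5 : ℝ)) := by ring
      _ = min (a / 8) 1 / 5 * N := by
          rw [← Real.rpow_add hN0, show (4 / 5 : ℝ) + 1 / 5 = 1 by norm_num, Real.rpow_one, hδ]
          field_simp
  have hX0 : 0 ≤ X := hX ▸ by positivity
  have hDR : D ≤ D ^ 6 * (√(N : ℝ) * L ^ 4) := (le_self_pow₀ hD1 (by norm_num)).trans
    (le_mul_of_one_le_right (by positivity)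
      (one_le_mul_of_one_le_of_one_le (Real.one_le_sqrt.2 hN1) (one_le_pow₀ hL1)))
  have hDR0 : 0 ≤ D ^ 6 * (√(N : ℝ) * L ^ 4) := by linarith
  have hm1 := mul_le_mul_of_nonneg_right (min_le_right (a / 8) 1) hX0
  have hm2 := mul_le_mul_of_nonneg_right (min_le_left (a / 8) 1) hX0
  have hBD : 0 ≤ B * (D ^ 6 * (√(N : ℝ) * L ^ 4)) := mul_nonneg hB hDR0
  have hremle := hrem N Z D hN (hLdef ▸ hL1) hD1
  rw [← hLdef] at hremle
  refine ⟨hZ2, ?_, ?_⟩
  · rw [← hX]
    linarith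
  -- the main term
  obtain ⟨S, hS⟩ : ∃ S, S = pointSieve W m N Z := ⟨_, rfl⟩
  have hpf : S.prodPrimes.primeFactors = sievingPrimes Z m.factorial :=
    hS ▸ primeFactors_sievingProd Z m.factorial
  have hnu : S.nu = shareFn := hS ▸ rfl
  obtain ⟨li, hlidef⟩ : ∃ li, li = logInt (N : ℝ) := ⟨_, rfl⟩
  rw [← hlidef] at hli
  obtain ⟨hli1, hli2⟩ := hli
  rw [le_div_iff₀ hN0] at hli1
  rw [div_le_iff₀ hN0] at hli2
  have htot : S.totalMass = li := by rw [hS, hlidef]; rfl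
  have hli0 : 0 ≤ li := hlidef ▸ FA.ArtinHooley.logInt_nonneg (by exact_mod_cast hN)
  have hsmallC : 20 * Real.exp ((10 : ℕ) : ℝ) * Real.exp 17 ^ 10 * Real.exp (-(s : ℝ)) ≤ 1 / 2 := by
    rw [show ((10 : ℕ) : ℝ) = 10 by norm_num, mul_assoc (20 : ℝ), ← hu, Real.exp_neg,
      ← div_eq_mul_inv, div_le_iff₀ (Real.exp_pos _)]
    linarith [Real.add_one_le_exp (s : ℝ)]
  have hfl := abs_le.1 (fundamental_lemma S (Z := Z) (κ := 1) (K := Real.exp 17) (s := (s : ℝ))
    (β := 10) (htot ▸ hli0) (fun p hp => by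
      rw [hpf] at hp
      exact (mem_sievingPrimes.1 hp).2.1) hZ2 zero_le_one (by norm_num) (by norm_num)
    (Real.one_le_exp (by norm_num)) (by push_cast; linarith)
    (by rw [hpf, hnu]; exact share_dimension Z m))
  have hV0 := mul_le_mul_of_nonneg_right hsmallC
    (mul_nonneg (htot ▸ hli0) (sieveProduct_pos S).le)
  rw [hS, pointSieve_siftedSum, ← hS, hZs] at hfl
  rw [← hS] at hremle
  rw [sieveProduct, hpf, hnu, htot] at hfl hV0
  obtain ⟨V, hV⟩ : ∃ V, V = ∏ p ∈ sievingPrimes Z m.factorial, (1 - shareFn p) := ⟨_, rfl⟩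
  rw [← hV] at hfl hV0
  have hVlo : a / L ≤ V := by
    have h := inv_mul_rpow_le_prod (Real.exp_pos 17) hZ2
      (fun p hp => (prime_of_mem_sievingPrimes hp).two_le) (fun p hp => by
        rw [shareFn_prime (prime_of_mem_sievingPrimes hp)]
        exact (localShare_lt_one (prime_of_mem_sievingPrimes hp).two_le).2) (share_dimension Z m)
    rw [Real.rpow_one, hlZ, ← hV] at h
    refine le_trans (le_of_eq ?_) h
    rw [ha]
    field_simp
  have hVhi : V ≤ C₀ * (20 * s) / L := by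
    have h := hprod Z hZ2
    rw [hlZ, ← hV, div_div_eq_mul_div] at h
    exact h
  have hmain1 : a / 2 * X ≤ li * V := by
    refine le_trans ?_ (mul_le_mul_of_nonneg_left hVlo hli0)
    rw [hX, mul_div_assoc' _ _ L, mul_div_assoc', div_le_div_iff₀ (by positivity) (by positivity)]
    linarith [mul_le_mul_of_nonneg_left hli1 (show 0 ≤ a * L by positivity)]
  have hmain2 : li * V ≤ 2 * (C₀ * (20 * s)) * X := by
    refine (mul_le_mul_of_nonneg_left hVhi hli0).trans ?_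
    rw [hX, mul_div_assoc', mul_div_assoc', div_le_div_iff₀ (by positivity) (by positivity)]
    linarith [mul_le_mul_of_nonneg_left hli2 (show 0 ≤ C₀ * (20 * s) * L by positivity)]
  rw [mul_div_assoc, mul_div_assoc, ← hX]
  have haX := mul_nonneg ha0.le hX0
  obtain ⟨e, he⟩ : ∃ e, e = 20 * Real.exp ((10 : ℕ) : ℝ) * Real.exp 17 ^ 10 *
      Real.exp (-(s : ℝ)) * (li * V) + remSum S D := ⟨_, rfl⟩
  have hr : remSum S D ≤ min (a / 8) 1 / 5 * X := by linarith
  have he1 : e ≤ li * V / 2 + min (a / 8) 1 / 5 * X := by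
    rw [he]
    exact (add_le_add hV0 hr).trans (le_of_eq (by ring))
  rw [← he] at hfl
  obtain ⟨hlow, hupp⟩ := hfl
  constructor <;> linarith

end FA.PointSieve

end
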